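import Mathlib.Dynamics.PeriodicPts.Lemmas
import Fermat.Agent.Periods.Conj

/-!
# Double coset operators on homomorphisms

A `HeckeSystem` induces an operator on homomorphisms which preserves parabolicity, and
`periodMap_heckeSystem` identifies it with the slash sum on periods.
-/

set_option autoImplicit false

noncomputable section

namespace Fermat.Agent.Periods

open UpperHalfPlane CongruenceSubgroup Function
open Matrix.SpecialLinearGroup ModularCurve ModularCurve.Period
open scoped MatrixGroups ModularForm BigOperators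

/-- A finite set of coset representatives stable under right multiplication by `Γ` modulo left
multiplication by `Γ'`; it induces an operator `Hom(Γ', A) → Hom(Γ, A)`. -/
structure HeckeSystem (Γ' Γ : Subgroup SL(2, ℤ)) (ι : Type) where
  rep : ι → GL (Fin 2) ℝ
  det_pos : ∀ i, 0 < (rep i).det.val
  perm : Γ → ι → ι
  cocycle : Γ → ι → Γ'
  spec : ∀ (γ : Γ) i, rep i * mapGL ℝ (γ : SL(2, ℤ))
    = mapGL ℝ (cocycle γ i : SL(2, ℤ)) * rep (perm γ i)
  unique : ∀ i j (γ : Γ'), rep i = mapGL ℝ (γ : SL(2, ℤ)) * rep j → i = j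

theorem mapGL_int_injective :
    Function.Injective (mapGL ℝ : SL(2, ℤ) → GL (Fin 2) ℝ) := by
  intro g h hgh
  ext i j
  have := congrArg (fun x : GL (Fin 2) ℝ => x i j) hgh
  simpa using this

namespace HeckeSystem

variable {Γ' Γ : Subgroup SL(2, ℤ)} {ι : Type} (S : HeckeSystem Γ' Γ ι)

theorem eq_of_mapGL_mul_rep {c c' : Γ'} {i j : ι}
    (h : mapGL ℝ (c : SL(2, ℤ)) * S.rep i = mapGL ℝ (c' : SL(2, ℤ)) * S.rep j) :
    i = j ∧ c = c' := by
  have hij : i = j := S.unique i j (c⁻¹ * c') (by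
    rw [Subgroup.coe_mul, map_mul, mul_assoc, ← h, ← mul_assoc, ← map_mul, InvMemClass.coe_inv,
      inv_mul_cancel, map_one, one_mul])
  subst hij
  exact ⟨rfl, Subtype.ext (mapGL_int_injective (mul_right_cancel h))⟩

theorem eq_of_spec {γ : Γ} {c : Γ'} {i j : ι}
    (h : S.rep i * mapGL ℝ (γ : SL(2, ℤ)) = mapGL ℝ (c : SL(2, ℤ)) * S.rep j) :
    S.perm γ i = j ∧ S.cocycle γ i = c :=
  S.eq_of_mapGL_mul_rep ((S.spec γ i).symm.trans h)

theorem perm_cocycle_one (i : ι) : S.perm 1 i = i ∧ S.cocycle 1 i = 1 :=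
  S.eq_of_spec (by simp)

theorem perm_cocycle_mul (γ δ : Γ) (i : ι) :
    S.perm (γ * δ) i = S.perm δ (S.perm γ i) ∧
      S.cocycle (γ * δ) i = S.cocycle γ i * S.cocycle δ (S.perm γ i) := by
  refine S.eq_of_spec ?_
  rw [Subgroup.coe_mul, Subgroup.coe_mul, map_mul, map_mul, ← mul_assoc, S.spec, mul_assoc, S.spec,
    mul_assoc]

theorem perm_injective (γ : Γ) : Injective (S.perm γ) := by
  intro i j h
  have := congrArg (S.perm γ⁻¹) h
  rwa [← (S.perm_cocycle_mul γ γ⁻¹ i).1, ← (S.perm_cocycle_mul γ γ⁻¹ j).1, mul_inv_cancel,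
    (S.perm_cocycle_one i).1, (S.perm_cocycle_one j).1] at this

theorem perm_bijective [Finite ι] (γ : Γ) : Bijective (S.perm γ) :=
  (Finite.injective_iff_bijective).mp (S.perm_injective γ)

variable [Fintype ι] {A B : Type*} [AddCommGroup A] [AddCommGroup B]

/-- The operator on homomorphisms. -/
def apply (φ : Additive Γ' →+ A) : Additive Γ →+ A where
  toFun γ := ∑ i, φ (Additive.ofMul (S.cocycle (Additive.toMul γ) i))
  map_zero' := by
    simp [(S.perm_cocycle_one _).2]
  map_add' γ δ := by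
    simp only [toMul_add, (S.perm_cocycle_mul _ _ _).2, ofMul_mul, map_add, Finset.sum_add_distrib]
    congr 1
    exact (S.perm_bijective _).sum_comp fun i => φ (Additive.ofMul (S.cocycle (Additive.toMul δ) i))

theorem apply_apply (φ : Additive Γ' →+ A) (γ : Γ) :
    S.apply φ (Additive.ofMul γ) = ∑ i, φ (Additive.ofMul (S.cocycle γ i)) := rfl

/-- The operator, linearly. -/
def op (R : Type*) [Semiring R] [Module R A] : (Additive Γ' →+ A) →ₗ[R] (Additive Γ →+ A) where
  toFun := S.apply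
  map_add' _ _ := AddMonoidHom.ext fun _ => Finset.sum_add_distrib
  map_smul' _ _ := AddMonoidHom.ext fun _ => Finset.smul_sum.symm

@[simp] theorem op_apply (R : Type*) [Semiring R] [Module R A] (φ : Additive Γ' →+ A) :
    S.op R φ = S.apply φ := rfl

/-- Naturality in the coefficients. -/
theorem apply_comp (g : A →+ B) (φ : Additive Γ' →+ A) :
    S.apply (g.comp φ) = g.comp (S.apply φ) :=
  AddMonoidHom.ext fun _ => (map_sum g _ _).symm

omit [Fintype ι] in
theorem perm_cocycle_pow (γ : Γ) (i : ι) :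
    ∀ m : ℕ, S.perm (γ ^ m) i = (S.perm γ)^[m] i ∧
      ∀ φ : Additive Γ' →+ A, φ (Additive.ofMul (S.cocycle (γ ^ m) i)) =
        ∑ k ∈ Finset.range m, φ (Additive.ofMul (S.cocycle γ ((S.perm γ)^[k] i)))
  | 0 => by simp [pow_zero, (S.perm_cocycle_one i).1, (S.perm_cocycle_one i).2]
  | m + 1 => by
    obtain ⟨h1, h2⟩ := perm_cocycle_pow γ i m
    obtain ⟨h3, h4⟩ := S.perm_cocycle_mul (γ ^ m) γ i
    rw [pow_succ]
    refine ⟨?_, fun φ => ?_⟩
    · rw [h3, h1, iterate_succ_apply']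
    · rw [h4, ofMul_mul, map_add, h2, h1, Finset.sum_range_succ]

/-- If a homomorphism kills the cocycle of every power of `γ` returning to its starting
representative, then its image under the operator kills `γ`. -/
theorem apply_eq_zero_of_orbits (φ : Additive Γ' →+ A) (γ : Γ)
    (h : ∀ (i : ι) (m : ℕ), 0 < m → S.perm (γ ^ m) i = i →
      φ (Additive.ofMul (S.cocycle (γ ^ m) i)) = 0) :
    S.apply φ (Additive.ofMul γ) = 0 := by
  classical
  rw [apply_apply]
  set σ := S.perm γ with hσ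
  suffices H : ∀ s : Finset ι, (∀ i, σ i ∈ s ↔ i ∈ s) →
      ∑ i ∈ s, φ (Additive.ofMul (S.cocycle γ i)) = 0 from H Finset.univ (by simp)
  intro s
  induction s using Finset.strongInduction with
  | _ s ih =>
    intro hs
    rcases s.eq_empty_or_nonempty with rfl | ⟨i, hi⟩
    · simp
    have hper : i ∈ periodicPts σ :=
      (S.perm_injective γ).mem_periodicPts i
    set m := minimalPeriod σ i with hm
    have hm0 : 0 < m := minimalPeriod_pos_of_mem_periodicPts hper
    have hfix : σ^[m] i = i := iterate_minimalPeriod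
    set O := (Finset.range m).image fun k => σ^[k] i with hO
    have hOs : O ⊆ s := by
      intro x hx
      obtain ⟨k, -, rfl⟩ := Finset.mem_image.mp hx
      clear hx
      induction k with
      | zero => exact hi
      | succ k ihk => rw [iterate_succ_apply']; exact (hs _).mpr ihk
    have hOinv : ∀ x, σ x ∈ O ↔ x ∈ O := by
      have hfwd : Set.MapsTo σ O O := by
        intro x hx
        obtain ⟨k, hk, rfl⟩ := Finset.mem_image.mp (Finset.mem_coe.mp hx)
        rw [Finset.mem_range] at hk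
        refine Finset.mem_coe.mpr (Finset.mem_image.mpr ?_)
        rcases Nat.lt_or_ge (k + 1) m with hk' | hk'
        · exact ⟨k + 1, Finset.mem_range.mpr hk', iterate_succ_apply' σ k i⟩
        · refine ⟨0, Finset.mem_range.mpr hm0, ?_⟩
          show σ^[0] i = σ (σ^[k] i)
          rw [← iterate_succ_apply' σ k i, show k.succ = m by omega, hfix]; rfl
      intro x
      refine ⟨fun hx => ?_, fun hx => hfwd hx⟩
      obtain ⟨y, hy, hyx⟩ := (O.finite_toSet.injOn_iff_bijOn_of_mapsTo hfwd).mp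
        (S.perm_injective γ).injOn |>.surjOn hx
      exact S.perm_injective γ hyx ▸ hy
    have hsum : ∑ x ∈ O, φ (Additive.ofMul (S.cocycle γ x)) = 0 := by
      rw [hO, Finset.sum_image (fun a ha b hb hab =>
        iterate_injOn_Iio_minimalPeriod (Finset.mem_range.mp ha) (Finset.mem_range.mp hb) hab),
        ← (S.perm_cocycle_pow γ i m).2 φ]
      exact h i m hm0 (by rw [(S.perm_cocycle_pow (A := A) γ i m).1]; exact hfix)
    rw [← Finset.sum_sdiff hOs, hsum, add_zero]
    refine ih _ (Finset.sdiff_ssubset hOs ⟨i, Finset.mem_image.mpr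
      ⟨0, Finset.mem_range.mpr hm0, rfl⟩⟩) fun x => ?_
    simp [hs x, hOinv x]

omit [Fintype ι] in
theorem trace_cocycle {γ : Γ} {i : ι} (h : S.perm γ i = i) :
    ((S.cocycle γ i : SL(2, ℤ)) : Matrix (Fin 2) (Fin 2) ℤ).trace
      = ((γ : SL(2, ℤ)) : Matrix (Fin 2) (Fin 2) ℤ).trace := by
  have h1 := congrArg (fun x : GL (Fin 2) ℝ => (x * (S.rep i)⁻¹).val.trace) (S.spec γ i)
  simp only [h, mul_assoc, mul_inv_cancel, mul_one] at h1
  rw [Units.val_mul, Units.val_mul, Matrix.trace_mul_comm, mul_assoc, ← Units.val_mul,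
    inv_mul_cancel, Units.val_one, mul_one] at h1
  simp [Matrix.trace_fin_two] at h1 ⊢
  exact_mod_cast h1.symm

/-- The discriminant of a power is a square multiple of the discriminant. -/
theorem _root_.Fermat.Agent.Periods.exists_pow_disc (g : SL(2, ℤ)) (m : ℕ) :
    ∃ u : ℤ, ((g ^ m : SL(2, ℤ)) : Matrix (Fin 2) (Fin 2) ℤ).trace ^ 2 - 4
      = u ^ 2 * (((g : SL(2, ℤ)) : Matrix (Fin 2) (Fin 2) ℤ).trace ^ 2 - 4) := by
  have hdet : g 0 0 * g 1 1 - g 0 1 * g 1 0 = 1 := by
    rw [← Matrix.det_fin_two]; exact g.det_coe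
  have key : ∃ u v : ℤ, ((g ^ m : SL(2, ℤ)) : Matrix (Fin 2) (Fin 2) ℤ)
      = u • (g : Matrix (Fin 2) (Fin 2) ℤ) + v • (1 : Matrix (Fin 2) (Fin 2) ℤ) := by
    induction m with
    | zero => exact ⟨0, 1, by simp⟩
    | succ m ih =>
      obtain ⟨u, v, h⟩ := ih
      refine ⟨u * (g 0 0 + g 1 1) + v, -u, ?_⟩
      rw [pow_succ, coe_mul, h]
      ext i j
      fin_cases i <;> fin_cases j <;>
        simp [Matrix.mul_apply, Fin.sum_univ_two, Matrix.intCast_apply, -zsmul_eq_mul]
      · linear_combination -u * hdet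
      · ring
      · ring
      · linear_combination -u * hdet
  obtain ⟨u, v, h⟩ := key
  refine ⟨u, ?_⟩
  have hd : (((g ^ m : SL(2, ℤ)) : Matrix (Fin 2) (Fin 2) ℤ)).det = 1 := (g ^ m).det_coe
  rw [h, Matrix.det_fin_two] at hd
  rw [h, Matrix.trace_fin_two, Matrix.trace_fin_two]
  simp [Matrix.intCast_apply, -zsmul_eq_mul] at hd ⊢
  linear_combination -4 * u ^ 2 * hdet + 4 * hd

omit [Fintype ι] in
theorem cocycle_pow_disc {γ : Γ} {i : ι} {m : ℕ} (h : S.perm (γ ^ m) i = i) :
    ∃ u : ℤ, ((S.cocycle (γ ^ m) i : SL(2, ℤ)) : Matrix (Fin 2) (Fin 2) ℤ).trace ^ 2 - 4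
      = u ^ 2 * (((γ : SL(2, ℤ)) : Matrix (Fin 2) (Fin 2) ℤ).trace ^ 2 - 4) := by
  rw [S.trace_cocycle h, SubmonoidClass.coe_pow]
  exact exists_pow_disc _ m

theorem apply_isParabolicHom {φ : Additive Γ' →+ A} (hφ : IsParabolicHom Γ' φ) :
    IsParabolicHom Γ (S.apply φ) := by
  intro γ hγ
  refine S.apply_eq_zero_of_orbits φ γ fun i m _ h => hφ _ ?_
  obtain ⟨u, hu⟩ := S.cocycle_pow_disc h
  rw [hγ] at hu
  linarith

theorem op_mem_parabolicHoms {R : Type*} [Semiring R] [Module R A] {φ : Additive Γ' →+ A}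
    (hφ : φ ∈ parabolicHoms R Γ' A) : S.op R φ ∈ parabolicHoms R Γ A :=
  S.apply_isParabolicHom hφ

/-- The condition of vanishing on elliptic and parabolic elements is preserved. -/
theorem apply_eq_zero_of_trace_sq_le {φ : Additive Γ' →+ A}
    (hφ : ∀ γ : Γ', ((γ : SL(2, ℤ)) : Matrix (Fin 2) (Fin 2) ℤ).trace ^ 2 ≤ 4 →
      φ (Additive.ofMul γ) = 0)
    (γ : Γ) (hγ : ((γ : SL(2, ℤ)) : Matrix (Fin 2) (Fin 2) ℤ).trace ^ 2 ≤ 4) :
    S.apply φ (Additive.ofMul γ) = 0 := by
  refine S.apply_eq_zero_of_orbits φ γ fun i m _ h => hφ _ ?_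
  obtain ⟨u, hu⟩ := S.cocycle_pow_disc h
  nlinarith [mul_nonneg (sq_nonneg u) (sub_nonneg.mpr hγ)]

end HeckeSystem

/-- If `g = ∑ f|[2] αᵢ` then the periods of `g` are the operator applied to the periods of `f`. -/
theorem periodMap_heckeSystem {N M : ℕ} [NeZero N] [NeZero M] {ι : Type} [Fintype ι]
    (S : HeckeSystem (Gamma0 N) (Gamma0 M) ι) (f : CuspForm (Gamma0 N) 2)
    (g : CuspForm (Gamma0 M) 2)
    (hg : ⇑g = ∑ i, ⇑f ∣[(2 : ℤ)] S.rep i) :
    periodMap M g = S.apply (periodMap N f) := by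
  obtain ⟨F, hF, -⟩ := exists_primitive f
  have hG : IsPrimitive ⇑g (fun τ => ∑ i, F (S.rep i • τ)) := by
    intro τ
    rw [hg, Finset.sum_apply]
    have := HasDerivAt.fun_sum (u := Finset.univ) fun i (_ : i ∈ Finset.univ) =>
      hF.comp_smul (S.det_pos i) τ
    exact this
  refine AddMonoidHom.ext fun x => ?_
  rw [← ofMul_toMul x]
  set γ := Additive.toMul x
  rw [periodMap_eq hG γ UpperHalfPlane.I, HeckeSystem.apply_apply]
  have h1 : ∀ i, periodMap N f (Additive.ofMul (S.cocycle γ i))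
      = F (S.rep i • ((γ : SL(2, ℤ)) • UpperHalfPlane.I))
        - F (S.rep (S.perm γ i) • UpperHalfPlane.I) := by
    intro i
    rw [periodMap_eq hF _ (S.rep (S.perm γ i) • UpperHalfPlane.I)]
    congr 2
    show mapGL ℝ (S.cocycle γ i : SL(2, ℤ)) • (S.rep (S.perm γ i) • UpperHalfPlane.I)
      = S.rep i • (mapGL ℝ (γ : SL(2, ℤ)) • UpperHalfPlane.I)
    rw [← mul_smul, ← mul_smul, S.spec]
  simp only [h1, Finset.sum_sub_distrib]
  congr 1
  exact ((S.perm_bijective γ).sum_comp fun i => F (S.rep i • UpperHalfPlane.I)).symm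

/-- Compatibility with `charInvolution` when `J` permutes the representatives modulo `Γ₀(N)`. -/
theorem charInvolution_heckeSystem {N M : ℕ} {ι : Type} [Fintype ι]
    (S : HeckeSystem (Gamma0 N) (Gamma0 M) ι) (τ : ι → ι) (hτ : Function.Bijective τ) (u : ι → Gamma0 N)
    (hu : ∀ i, UpperHalfPlane.J * S.rep i * UpperHalfPlane.J
      = mapGL ℝ (u i : SL(2, ℤ)) * S.rep (τ i))
    {R : Type*} [Semiring R] {A : Type*} [AddCommGroup A] [Module R A]
    (φ : Additive (Gamma0 N) →+ A) :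
    S.apply (charInvolution N R A φ) = charInvolution M R A (S.apply φ) := by
  refine AddMonoidHom.ext fun x => ?_
  rw [← ofMul_toMul x]
  set γ := Additive.toMul x
  simp only [charInvolution_apply, toMul_ofMul, HeckeSystem.apply_apply]
  set δ := jConjGamma0 M γ with hδ
  have key : ∀ i, S.cocycle δ (τ i)
      = (u i)⁻¹ * jConjGamma0 N (S.cocycle γ i) * u (S.perm γ i) := by
    intro i
    refine (S.eq_of_spec (j := τ (S.perm γ i)) ?_).2
    rw [Subgroup.coe_mul, Subgroup.coe_mul, InvMemClass.coe_inv, map_mul, map_mul, map_inv,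
      mul_assoc _ (mapGL ℝ (u (S.perm γ i) : SL(2, ℤ))), ← hu, mul_assoc, eq_inv_mul_iff_mul_eq,
      ← mul_assoc, ← hu]
    simp only [hδ, jConjGamma0_coe]
    calc UpperHalfPlane.J * S.rep i * UpperHalfPlane.J * mapGL ℝ (jConjSL (γ : SL(2, ℤ)))
        = UpperHalfPlane.J * (S.rep i * mapGL ℝ (γ : SL(2, ℤ))) * UpperHalfPlane.J := by
          rw [mul_assoc _ UpperHalfPlane.J, J_mul_mapGL, jConjSL_jConjSL]
          simp only [mul_assoc]
      _ = UpperHalfPlane.J * mapGL ℝ (S.cocycle γ i : SL(2, ℤ)) * S.rep (S.perm γ i)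
            * UpperHalfPlane.J := by
          rw [S.spec]; simp only [mul_assoc]
      _ = _ := by rw [J_mul_mapGL]; simp only [mul_assoc]
  rw [← hτ.sum_comp fun i => φ (Additive.ofMul (S.cocycle δ i))]
  simp only [key, ofMul_mul, ofMul_inv, map_add, map_neg, Finset.sum_add_distrib]
  rw [(S.perm_bijective γ).sum_comp fun i => φ (Additive.ofMul (u i)), Finset.sum_neg_distrib]
  abel

end Fermat.Agent.Periods
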